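/-
S19, arithmetic of `Rur = A^I` (helper4572).  For a valuation subring `A` of `Qbar` over `ℓ` with inertia
group `I`:
* `exists_monic_rur` (R2): every element of `A` is a root of a monic polynomial whose coefficients lie in
  `A` and are fixed by `I` (so `A` is integral over `Rur`);
* `exists_rur_lift` (R1): every element of `A` is congruent modulo the maximal ideal to an element of `A`
  fixed by `I` (so `Rur → A/m` is onto); the lift is `0` or a root of unity of order prime to `ℓ`.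
Built on the landed trees (S13/Val, S54/Frobenius) and Mathlib only.
-/
import Fermat.Agent.S19.Defs
import Fermat.Agent.S13.Val

set_option autoImplicit false
set_option linter.unusedSectionVars false
set_option linter.unusedVariables false

namespace Fermat.Agent.S19.Rur4572

open Polynomial Fermat.Agent.S19

variable (A : ValuationSubring Qbar)

/-- (R2) Every element of `A` is integral over the inertia-fixed elements of `A`. -/
theorem exists_monic_rur (a : Qbar) (ha : a ∈ A) :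
    ∃ p : Polynomial Qbar, p.Monic ∧
      (∀ i, p.coeff i ∈ A ∧ ∀ σ ∈ A.inertiaSubgroupIn ℚ, σ (p.coeff i) = p.coeff i) ∧
      p.eval a = 0 := by
  classical
  have hint : IsIntegral ℚ a := Algebra.IsIntegral.isIntegral a
  have hfin : ((minpoly ℚ a).rootSet Qbar).Finite := Polynomial.rootSet_finite _ _
  let O : Finset Qbar := hfin.toFinset.filter (fun b => ∃ σ ∈ A.inertiaSubgroupIn ℚ, σ a = b)
  have hO : ∀ b, b ∈ O ↔ ∃ σ ∈ A.inertiaSubgroupIn ℚ, σ a = b := by
    intro b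
    simp only [O, Finset.mem_filter, Set.Finite.mem_toFinset]
    refine ⟨fun h => h.2, fun h => ⟨?_, h⟩⟩
    obtain ⟨σ, -, rfl⟩ := h
    rw [Polynomial.mem_rootSet]
    refine ⟨minpoly.ne_zero hint, ?_⟩
    have h1 : Polynomial.aeval (σ a) (minpoly ℚ a) = σ (Polynomial.aeval a (minpoly ℚ a)) :=
      Polynomial.aeval_algHom_apply (σ : Qbar →ₐ[ℚ] Qbar) a (minpoly ℚ a)
    rw [h1, minpoly.aeval, map_zero]
  let p : Polynomial Qbar := ∏ b ∈ O, (X - C b)
  refine ⟨p, monic_prod_of_monic _ _ (fun b _ => monic_X_sub_C b), fun i => ⟨?_, ?_⟩, ?_⟩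
  · have hp : p ∈ Polynomial.lifts A.subtype := by
      refine Subsemiring.prod_mem _ fun b hb => ?_
      obtain ⟨σ, hσ, rfl⟩ := (hO b).1 hb
      have hb' : σ a ∈ A := (Fermat.Agent.S13.inertia_mem A hσ a ha).1
      rw [Polynomial.mem_lifts]
      exact ⟨X - C ⟨σ a, hb'⟩, by simp⟩
    rw [Polynomial.lifts_iff_coeff_lifts] at hp
    obtain ⟨c, hc⟩ := hp i
    rw [← hc]
    exact c.2
  · intro σ hσ
    have hmap : p.map (σ.toRingEquiv : Qbar →+* Qbar) = p := by
      have himg : O.image (fun b => σ b) = O := by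
        refine Finset.eq_of_subset_of_card_le ?_ ?_
        · intro c hc
          obtain ⟨b, hb, rfl⟩ := Finset.mem_image.1 hc
          obtain ⟨τ, hτ, rfl⟩ := (hO b).1 hb
          exact (hO _).2 ⟨σ * τ, Subgroup.mul_mem _ hσ hτ, rfl⟩
        · rw [Finset.card_image_of_injective _ σ.injective]
      have h1 : p.map (σ.toRingEquiv : Qbar →+* Qbar) = ∏ b ∈ O, (X - C (σ b)) := by
        simp only [p, Polynomial.map_prod, Polynomial.map_sub, Polynomial.map_X, Polynomial.map_C]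
        rfl
      rw [h1]
      conv_rhs => rw [show p = ∏ b ∈ O, (X - C b) from rfl, ← himg]
      rw [Finset.prod_image (fun x _ y _ h => σ.injective h)]
    have h2 := congrArg (fun q => q.coeff i) hmap
    simp only [Polynomial.coeff_map] at h2
    exact h2
  · rw [Polynomial.eval_prod]
    exact Finset.prod_eq_zero ((hO a).2 ⟨1, Subgroup.one_mem _, rfl⟩) (by simp)

/-- A product of elements of `A` lying in the maximal ideal has a factor in the maximal ideal. -/
theorem exists_mem_nonunits_of_prod (a : Qbar) (s : Multiset Qbar) (hs : ∀ ζ ∈ s, a - ζ ∈ A)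
    (h : (s.map (a - ·)).prod ∈ A.nonunits) : ∃ ζ ∈ s, a - ζ ∈ A.nonunits := by
  induction s using Multiset.induction_on with
  | empty =>
    exfalso
    rw [Multiset.map_zero, Multiset.prod_zero, ValuationSubring.mem_nonunits_iff, map_one] at h
    exact lt_irrefl _ h
  | cons x s ih =>
    rw [Multiset.map_cons, Multiset.prod_cons] at h
    by_cases hx : a - x ∈ A.nonunits
    · exact ⟨x, Multiset.mem_cons_self x s, hx⟩
    · have hxA : a - x ∈ A := hs x (Multiset.mem_cons_self x s)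
      have hx1 : A.valuation (a - x) = 1 := Fermat.Agent.S54.valuation_eq_one_of_mem A hxA hx
      have h' : (s.map (a - ·)).prod ∈ A.nonunits := by
        rw [ValuationSubring.mem_nonunits_iff] at h ⊢
        rwa [map_mul, hx1, one_mul] at h
      obtain ⟨ζ, hζ, hζm⟩ := ih (fun ζ hζ => hs ζ (Multiset.mem_cons_of_mem hζ)) h'
      exact ⟨ζ, Multiset.mem_cons_of_mem hζ, hζm⟩

/-- Roots of unity lie in every valuation subring. -/
theorem mem_of_pow_eq_one {ζ : Qbar} {m : ℕ} (hm : 0 < m) (hζ : ζ ^ m = 1) : ζ ∈ A := by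
  by_contra hcon
  have h1 : ζ⁻¹ ∈ A.nonunits := (A.inv_mem_nonunits_iff).2 (Or.inr hcon)
  have h2 : (ζ⁻¹) ^ m ∈ A.nonunits := by
    rw [ValuationSubring.mem_nonunits_iff] at h1 ⊢
    rw [map_pow]
    exact pow_lt_one₀ zero_le h1 hm.ne'
  rw [inv_pow, hζ, inv_one, ValuationSubring.mem_nonunits_iff, map_one] at h2
  exact lt_irrefl _ h2

/-- A root of unity of order prime to `ℓ` which is congruent to `1` is `1`. -/
theorem eq_one_of_pow_eq_one {ℓ : ℕ} [Fact ℓ.Prime] (hA : A.LiesOverPrime ℓ) {η : Qbar} {m : ℕ}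
    (hm : 0 < m) (hℓm : ¬ ℓ ∣ m) (hη : η ^ m = 1) (hη1 : η - 1 ∈ A.nonunits) : η = 1 := by
  by_contra hne
  have hηA : η ∈ A := mem_of_pow_eq_one A hm hη
  have hsum : ∑ i ∈ Finset.range m, η ^ i = 0 := by
    have h1 := mul_geom_sum η m
    rw [hη, sub_self] at h1
    rcases mul_eq_zero.1 h1 with h2 | h2
    · exact absurd (sub_eq_zero.1 h2) hne
    · exact h2
  have hpow : ∀ i : ℕ, 1 - η ^ i ∈ A.nonunits := by
    intro i
    have h1 : 1 - η ^ i = - ((η - 1) * ∑ j ∈ Finset.range i, η ^ j) := by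
      rw [mul_geom_sum]
      ring
    rw [h1]
    refine A.nonunits.neg_mem ?_
    rw [mul_comm]
    refine Fermat.Agent.S54.mul_mem_nonunits A ?_ hη1
    exact Subring.sum_mem A.toSubring fun j _ => Subring.pow_mem A.toSubring hηA j
  have hmm : (m : Qbar) ∈ A.nonunits := by
    have h1 : (m : Qbar) = ∑ i ∈ Finset.range m, (1 - η ^ i) := by
      rw [Finset.sum_sub_distrib, hsum, sub_zero]
      simp
    rw [h1]
    exact A.nonunits.sum_mem fun i _ => hpow i
  have h3 := Fermat.Agent.S54.intCast_not_mem_nonunits A ℓ Fact.out hA (m : ℤ)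
    (fun h => hℓm (Int.natCast_dvd_natCast.1 h))
  exact h3 (by exact_mod_cast hmm)

/-- Roots of unity of order prime to `ℓ` are fixed by inertia. -/
theorem inertia_fixes_root {ℓ : ℕ} [Fact ℓ.Prime] (hA : A.LiesOverPrime ℓ) {ζ : Qbar} {m : ℕ}
    (hm : 0 < m) (hℓm : ¬ ℓ ∣ m) (hζ : ζ ^ m = 1) (σ : GQ) (hσ : σ ∈ A.inertiaSubgroupIn ℚ) :
    σ ζ = ζ := by
  have hζA : ζ ∈ A := mem_of_pow_eq_one A hm hζ
  have hζ0 : ζ ≠ 0 := by
    rintro rfl
    rw [zero_pow hm.ne'] at hζ
    exact zero_ne_one hζ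
  have hinvA : ζ⁻¹ ∈ A := mem_of_pow_eq_one A hm (by rw [inv_pow, hζ, inv_one])
  have h1 : σ ζ - ζ ∈ A.nonunits := (Fermat.Agent.S13.inertia_mem A hσ ζ hζA).2
  have h2 : σ ζ * ζ⁻¹ - 1 ∈ A.nonunits := by
    have e : σ ζ * ζ⁻¹ - 1 = ζ⁻¹ * (σ ζ - ζ) := by
      field_simp
    rw [e]
    exact Fermat.Agent.S54.mul_mem_nonunits A hinvA h1
  have h3 : (σ ζ * ζ⁻¹) ^ m = 1 := by
    rw [mul_pow, ← map_pow, hζ, map_one, inv_pow, hζ, inv_one, mul_one]
  have h4 := eq_one_of_pow_eq_one A hA hm hℓm h3 h2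
  field_simp at h4
  exact h4

/-- In a field which is an algebra over `ZMod ℓ`, a nonzero algebraic element has finite multiplicative
order prime to `ℓ`. -/
theorem exists_pow_eq_one_of_isAlgebraic {ℓ : ℕ} [Fact ℓ.Prime] {k : Type*} [Field k]
    [Algebra (ZMod ℓ) k] (x : k) (hx : x ≠ 0) (halg : IsAlgebraic (ZMod ℓ) x) :
    ∃ m : ℕ, 0 < m ∧ ¬ ℓ ∣ m ∧ x ^ m = 1 := by
  classical
  have hℓ : ℓ.Prime := Fact.out
  have hchar : CharP k ℓ := charP_of_injective_algebraMap (algebraMap (ZMod ℓ) k).injective ℓ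
  have hfin : Finite (Algebra.adjoin (ZMod ℓ) {x}) := by
    have hint : IsIntegral (ZMod ℓ) x := halg.isIntegral
    have hmf : Module.Finite (ZMod ℓ) (Algebra.adjoin (ZMod ℓ) {x}) :=
      Module.Finite.iff_fg.2 hint.fg_adjoin_singleton
    exact Module.finite_of_finite (ZMod ℓ)
  have hxm : x ∈ Algebra.adjoin (ZMod ℓ) {x} := Algebra.subset_adjoin (Set.mem_singleton x)
  have hpm : ∀ n : ℕ, x ^ n ∈ Algebra.adjoin (ZMod ℓ) {x} := fun n =>
    Subalgebra.pow_mem _ hxm n
  obtain ⟨i, j, hij, heq⟩ : ∃ i j : ℕ, i < j ∧ x ^ i = x ^ j := by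
    obtain ⟨i, j, hne, h⟩ := Finite.exists_ne_map_eq_of_infinite
      (fun n : ℕ => (⟨x ^ n, hpm n⟩ : Algebra.adjoin (ZMod ℓ) {x}))
    have h' : x ^ i = x ^ j := congrArg Subtype.val h
    rcases lt_or_gt_of_ne hne with hlt | hlt
    · exact ⟨i, j, hlt, h'⟩
    · exact ⟨j, i, hlt, h'.symm⟩
  have h1 : x ^ (j - i) = 1 := by
    have h2 : x ^ i * x ^ (j - i) = x ^ i * 1 := by
      have hji : i + (j - i) = j := by omega
      rw [← pow_add, mul_one, hji, ← heq]
    exact mul_left_cancel₀ (pow_ne_zero i hx) h2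
  obtain ⟨e, m, hm, hjm⟩ := Nat.exists_eq_pow_mul_and_not_dvd (n := j - i) (by omega) ℓ hℓ.ne_one
  have h2 : x ^ m = 1 := by
    have h3 : (x ^ m - 1) ^ (ℓ ^ e) = 0 := by
      rw [sub_pow_char_pow, ← pow_mul, mul_comm, ← hjm, h1, one_pow, sub_self]
    exact sub_eq_zero.1 (pow_eq_zero_iff (pow_pos hℓ.pos e).ne' |>.1 h3)
  have hm0 : 0 < m := Nat.pos_of_ne_zero (fun h => hm (h ▸ dvd_zero ℓ))
  exact ⟨m, hm0, hm, h2⟩

/-- The residue field of a valuation subring over `ℓ` has characteristic `ℓ`. -/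
theorem residue_natCast_eq_zero {ℓ : ℕ} (hA : A.LiesOverPrime ℓ) :
    ((ℓ : ℕ) : IsLocalRing.ResidueField A) = 0 := by
  obtain ⟨h1, hmem⟩ := ValuationSubring.mem_nonunits_iff_exists_mem_maximalIdeal.mp
    (show ((ℓ : ℕ) : Qbar) ∈ A.nonunits from hA)
  have h2 : (⟨((ℓ : ℕ) : Qbar), h1⟩ : A) = ((ℓ : ℕ) : A) := Subtype.ext (by simp)
  rw [h2] at hmem
  have h3 := (IsLocalRing.residue_eq_zero_iff ((ℓ : ℕ) : A)).mpr hmem
  simpa using h3

/-- Elements of `A` satisfy a primitive integer polynomial relation. -/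
theorem exists_primPart_eval (a : Qbar) (ha : a ∈ A) :
    ∃ g : Polynomial ℤ, g.IsPrimitive ∧
      Polynomial.eval₂ (Int.castRingHom A) (⟨a, ha⟩ : A) g = 0 := by
  have h1 : IsAlgebraic ℤ a :=
    (IsFractionRing.isAlgebraic_iff ℤ ℚ Qbar).2 (Algebra.IsAlgebraic.isAlgebraic a)
  obtain ⟨f, hf0, hfa⟩ := h1
  have hcont : f.content ≠ 0 := fun h => hf0 (Polynomial.content_eq_zero_iff.1 h)
  have hfa' : Polynomial.aeval a f.primPart = 0 := by
    have h2 : Polynomial.aeval a f = (f.content : Qbar) * Polynomial.aeval a f.primPart := by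
      conv_lhs => rw [f.eq_C_content_mul_primPart]
      rw [map_mul, Polynomial.aeval_C]
      simp
    rw [h2] at hfa
    rcases mul_eq_zero.1 hfa with h3 | h3
    · exact absurd (by exact_mod_cast h3) hcont
    · exact h3
  refine ⟨f.primPart, f.isPrimitive_primPart, ?_⟩
  apply Subtype.ext
  have h2 := Polynomial.hom_eval₂ f.primPart (Int.castRingHom A) A.subtype (⟨a, ha⟩ : A)
  have h3 : (A.subtype : A →+* Qbar).comp (Int.castRingHom A) = Int.castRingHom Qbar :=
    RingHom.ext_int _ _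
  rw [h3] at h2
  have h4 : Polynomial.eval₂ (Int.castRingHom Qbar) a f.primPart = 0 := by
    rw [← hfa', Polynomial.aeval_def]
    rfl
  exact h2.trans h4

/-- A unit of `A` has finite order prime to `ℓ` modulo the maximal ideal. -/
theorem exists_pow_sub_one_mem {ℓ : ℕ} [Fact ℓ.Prime] (hA : A.LiesOverPrime ℓ) (a : Qbar)
    (ha : a ∈ A) (hna : a ∉ A.nonunits) :
    ∃ m : ℕ, 0 < m ∧ ¬ ℓ ∣ m ∧ a ^ m - 1 ∈ A.nonunits := by
  classical
  have hℓ : ℓ.Prime := Fact.out
  have hchar : CharP (IsLocalRing.ResidueField A) ℓ :=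
    (CharP.charP_iff_prime_eq_zero hℓ).2 (residue_natCast_eq_zero A hA)
  let _ : Algebra (ZMod ℓ) (IsLocalRing.ResidueField A) := ZMod.algebra _ ℓ
  have hab0 : IsLocalRing.residue A ⟨a, ha⟩ ≠ 0 := by
    rw [Ne, IsLocalRing.residue_eq_zero_iff, ← ValuationSubring.coe_mem_nonunits_iff]
    exact hna
  have halg : IsAlgebraic (ZMod ℓ) (IsLocalRing.residue A ⟨a, ha⟩) := by
    obtain ⟨g, hg, hga⟩ := exists_primPart_eval A a ha
    refine ⟨g.map (Int.castRingHom (ZMod ℓ)), ?_, ?_⟩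
    · intro h0
      have hdvd : ∀ i, (ℓ : ℤ) ∣ g.coeff i := by
        intro i
        have h1 := congrArg (fun q => q.coeff i) h0
        simp only [Polynomial.coeff_map, Polynomial.coeff_zero, eq_intCast] at h1
        exact (ZMod.intCast_zmod_eq_zero_iff_dvd _ _).1 h1
      have hC : C (ℓ : ℤ) ∣ g := (Polynomial.C_dvd_iff_dvd_coeff _ _).2 hdvd
      have hunit : IsUnit (ℓ : ℤ) := hg _ hC
      exact (Nat.prime_iff_prime_int.mp hℓ).not_isUnit hunit
    · have h4 := congrArg (IsLocalRing.residue A) hga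
      rw [Polynomial.hom_eval₂, map_zero] at h4
      rw [Polynomial.aeval_def, Polynomial.eval₂_map]
      have h5 : (algebraMap (ZMod ℓ) (IsLocalRing.ResidueField A)).comp (Int.castRingHom (ZMod ℓ))
          = (IsLocalRing.residue A).comp (Int.castRingHom A) := RingHom.ext_int _ _
      rw [h5]
      exact h4
  obtain ⟨m, hm0, hm, h2⟩ := exists_pow_eq_one_of_isAlgebraic _ hab0 halg
  refine ⟨m, hm0, hm, ?_⟩
  have h4 : IsLocalRing.residue A ((⟨a, ha⟩ : A) ^ m - 1) = 0 := by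
    rw [map_sub, map_pow, map_one, h2, sub_self]
  rw [IsLocalRing.residue_eq_zero_iff, ← ValuationSubring.coe_mem_nonunits_iff] at h4
  exact h4

/-- (R1) Every element of `A` is congruent modulo the maximal ideal to an inertia-fixed element of `A`. -/
theorem exists_rur_lift {ℓ : ℕ} [Fact ℓ.Prime] (hA : A.LiesOverPrime ℓ) (a : Qbar) (ha : a ∈ A) :
    ∃ a' : Qbar, a' ∈ A ∧ (∀ σ ∈ A.inertiaSubgroupIn ℚ, σ a' = a') ∧ a - a' ∈ A.nonunits := by
  by_cases hna : a ∈ A.nonunits
  · exact ⟨0, A.zero_mem, fun σ _ => map_zero σ, by rwa [sub_zero]⟩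
  · obtain ⟨m, hm0, hm, hmem⟩ := exists_pow_sub_one_mem A hA a ha hna
    -- factor `X ^ m - 1` over `Qbar`
    have hmonic : (X ^ m - 1 : Polynomial Qbar).Monic := monic_X_pow_sub_C 1 hm0.ne'
    have hsplit : (X ^ m - 1 : Polynomial Qbar).Splits := IsAlgClosed.splits _
    have heval := hsplit.eval_eq_prod_roots_of_monic hmonic a
    rw [Polynomial.eval_sub, Polynomial.eval_pow, Polynomial.eval_X, Polynomial.eval_one] at heval
    have hroot : ∀ ζ ∈ (X ^ m - 1 : Polynomial Qbar).roots, ζ ^ m = 1 := by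
      intro ζ hζ
      have h1 := (Polynomial.mem_roots (hmonic.ne_zero)).1 hζ
      rw [Polynomial.IsRoot, Polynomial.eval_sub, Polynomial.eval_pow, Polynomial.eval_X,
        Polynomial.eval_one] at h1
      exact sub_eq_zero.1 h1
    rw [heval] at hmem
    obtain ⟨ζ, hζ, hζm⟩ := exists_mem_nonunits_of_prod A a _
      (fun ζ hζ => Subring.sub_mem A.toSubring ha (mem_of_pow_eq_one A hm0 (hroot ζ hζ))) hmem
    exact ⟨ζ, mem_of_pow_eq_one A hm0 (hroot ζ hζ),
      fun σ hσ => inertia_fixes_root A hA hm0 hm (hroot ζ hζ) σ hσ, hζm⟩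

end Fermat.Agent.S19.Rur4572
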